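import Fermat.Agent.ORD.D2.Interface
import Fermat.Agent.BR.Inst.Raise
import Fermat.Agent.INJ.Deep.DeepK

/-!
# ORD / D2-5 : Theorem D'' at all levels `M * p` (`NM.Stmt_D2FF`)

Level raising to `lcm(M, 2) * p` and descent (norm descent for `p ≠ 3`, `Stmt_Cube` for `p = 3`).
-/

set_option autoImplicit false
set_option synthInstance.maxHeartbeats 400000

noncomputable section

namespace Fermat.Agent.ORD.D2

open AlgebraicCurve ModularCurve IntermediateField Polynomial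
open Fermat.Agent Fermat.Agent.INJ Fermat.Agent.INJ.Inst Fermat.Agent.BR.Inst
open Fermat.Agent.ORD.Dep (Cg Sm ActsMu cst)

theorem D25_lcm {M p : ℕ} (hp : p.Prime) (hp2 : p ≠ 2) : (M * p).lcm 2 = M.lcm 2 * p := by
  have hcop : Nat.Coprime p 2 := (Nat.coprime_primes hp Nat.prime_two).2 hp2
  by_cases h2 : 2 ∣ M
  · rw [Nat.lcm_eq_left h2, Nat.lcm_eq_left (h2.trans (dvd_mul_right M p))]
  · have hM : Nat.Coprime M 2 := ((Nat.Prime.coprime_iff_not_dvd Nat.prime_two).2 h2).symm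
    rw [hM.lcm_eq_mul, (Nat.Coprime.mul_left hM hcop).lcm_eq_mul]
    ring

/-- **D2-5**. -/
theorem stmt_D2FF (hN : Stmt_DNorm) (hAP : BR.Inst.Stmt_ALPrime) (hC : INJ.Deep.Stmt_Cube) :
    ORD.NM.Stmt_D2FF := by
  intro p hp hp2 A hA M _ hpM W hW w π' hw hπ u hu h1 h2 s hs c hc
  have hM0 : M ≠ 0 := fun h => NeZero.ne (M * p) (by rw [h, zero_mul])
  have hM'0 : M.lcm 2 ≠ 0 := Nat.lcm_ne_zero hM0 two_ne_zero
  have : NeZero (M.lcm 2) := ⟨hM'0⟩
  have : NeZero (M.lcm 2 * p) := ⟨mul_ne_zero hM'0 hp.ne_zero⟩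
  have hdvd : M * p ∣ M.lcm 2 * p := Nat.mul_dvd_mul_right (Nat.dvd_lcm_left M 2) p
  have hpM' : ¬ p ∣ M.lcm 2 := INJ.Deep.D12_not_dvd_lcm hp hp2 hpM
  have hlcm : (M * p).lcm 2 = M.lcm 2 * p := D25_lcm hp hp2
  obtain ⟨⟨W', hW'⟩, hiff'⟩ := hAP (M.lcm 2) p hp hpM'
  obtain ⟨-, hiff⟩ := hAP M p hp hpM
  have hcomp := T7_incl_al hdvd hp (dvd_mul_left p M) W ((hiff W).2 hW) W' ((hiff' W').2 hW')
  obtain ⟨g', hg'⟩ := hN 2 (M.lcm 2) p A ⟨Or.inl rfl, Nat.dvd_lcm_right M 2, hp, hpM', hA⟩ W' hW'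
    w π' hw hπ (T7_incl hdvd u) (T7_isDiv hdvd p hu)
    (by
      obtain ⟨c₁, g₁, hc₁, hg₁, hCg⟩ := h1
      refine ⟨c₁, T7_incl hdvd g₁, hc₁, (_root_.map_ne_zero (T7_incl hdvd)).2 hg₁, ?_⟩
      rw [T7_coe_incl, T7_coe_incl]
      exact hCg)
    (by
      obtain ⟨c₁, g₁, hc₁, hg₁, hCg⟩ := h2
      refine ⟨c₁, T7_incl hdvd g₁, hc₁, (_root_.map_ne_zero (T7_incl hdvd)).2 hg₁, ?_⟩
      rw [hcomp, T7_coe_incl, T7_coe_incl]
      exact hCg)
    s hs c hc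
  have hu0 : u ≠ 0 := hu.1
  have huc : u ^ c ≠ 0 := pow_ne_zero _ hu0
  -- the element to be descended
  set v : FL (M * p) := ES.Mid.gal (M * p) s u * (u ^ c)⁻¹ with hv
  have hgv : g' ^ p = T7_incl hdvd v := by
    rw [hv, map_mul, map_inv₀, map_pow, ← T7_incl_gal, hg']
    have : T7_incl hdvd u ^ c ≠ 0 :=
      pow_ne_zero _ ((_root_.map_ne_zero (T7_incl hdvd)).2 hu0)
    field_simp
  have hgv' : (g' : LaurentSeries Qb) ^ p = (v : LaurentSeries Qb) := by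
    have := congrArg Subtype.val hgv
    rw [T7_coe_incl] at this
    simpa using this
  have key : ∃ g : FL (M * p), g ^ p = v := by
    by_cases hp3 : p = 3
    · have h3 : (g' : LaurentSeries Qb) ^ 3 = (v : LaurentSeries Qb) := by
        rw [← hp3]
        exact hgv'
      have hmem := hC (M * p) (v : LaurentSeries Qb) (g' : LaurentSeries Qb) v.2
        (by rw [hlcm]; exact g'.2) h3
      refine ⟨⟨g', hmem⟩, Subtype.ext ?_⟩
      rw [IntermediateField.coe_pow]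
      exact hgv'
    · have s2 := T7_descent hdvd p v g' hgv
      have : NeZero ((M * p).lcm 2) := ⟨by rw [hlcm]; exact mul_ne_zero hM'0 hp.ne_zero⟩
      have hd2 := Descent.relfinrank_lcm_dvd (M * p) Nat.prime_two
      rw [hlcm] at hd2
      refine Descent.exists_pow_of_coprime v p _ p hp.ne_zero ?_ s2 ⟨v, rfl⟩
      refine Nat.Coprime.coprime_dvd_left hd2 ?_
      exact (Nat.coprime_primes Nat.prime_three hp).2 (Ne.symm hp3)
  obtain ⟨g, hg⟩ := key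
  refine ⟨g, ?_⟩
  rw [hg, hv, mul_left_comm, mul_inv_cancel₀ huc, mul_one]

end Fermat.Agent.ORD.D2

end
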