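import Fermat.Agent.ORD.D2.Interface
import Fermat.Agent.BR.Inst.Final
import Fermat.Agent.ORD.Dep.Tame

/-!
# ORD / D2 : [D2-3] Theorem D'' at the levels `M * p`, `a ∣ M`, one deep representative
(assembly from `Stmt_TCDeep`; copy-adapt of `BR/Inst/GM.lean`)
-/

set_option autoImplicit false
set_option synthInstance.maxHeartbeats 400000

noncomputable section

namespace Fermat.Agent.ORD.D2

open AlgebraicCurve ModularCurve IntermediateField Polynomial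
open Fermat.Agent Fermat.Agent.INJ Fermat.Agent.INJ.Inst Fermat.Agent.BR.Inst
open Fermat.Agent.BR.Inv (TC Pair Normal)
open Fermat.Agent.ORD.Dep (Cg Sm ActsMu cst)

/-! ### constants -/

/-- elements of the maximal ideal of `A`. -/
theorem D23_ra_zero {N : ℕ} {A : ValuationSubring Qb}
    {L : IntermediateField (kA A) (LaurentSeries (kA A))} {D : RedData Qb (FL N) (kA A) L}
    (hD : IsGauss N A L D) {a : Qb} (ha : a ∈ A.nonunits) : a ∈ D.A ∧ D.ra a = 0 := by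
  have haA : a ∈ A := A.nonunits_subset ha
  refine ⟨by rw [hD.hA]; exact haA, ?_⟩
  rw [hD.ra a haA, IsLocalRing.residue_eq_zero_iff, ← ValuationSubring.coe_mem_nonunits_iff]
  exact ha

/-- elements congruent to a natural number. -/
theorem D23_ra_nat {N : ℕ} {A : ValuationSubring Qb}
    {L : IntermediateField (kA A) (LaurentSeries (kA A))} {D : RedData Qb (FL N) (kA A) L}
    (hD : IsGauss N A L D) {a : Qb} (c : ℕ) (ha : a - (c : Qb) ∈ A.nonunits) :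
    a ∈ D.A ∧ D.ra a = (c : kA A) := by
  have hc : (c : Qb) ∈ A := _root_.natCast_mem A c
  have haA : a ∈ A := by
    have := A.add_mem _ _ (A.nonunits_subset ha) hc
    rwa [sub_add_cancel] at this
  refine ⟨by rw [hD.hA]; exact haA, ?_⟩
  rw [hD.ra a haA, ← sub_eq_zero, ← map_natCast (IsLocalRing.residue A) c, ← map_sub,
    IsLocalRing.residue_eq_zero_iff, ← ValuationSubring.coe_mem_nonunits_iff]
  exact ha

/-- `w ^ (p - 1) = - p` forces `w ∈ 𝔪_A`. -/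
theorem D23_w_mem {p : ℕ} (A : ValuationSubring Qb) (hA : A.LiesOverPrime p) {w : Qb}
    (hw : w ^ (p - 1) = -(p : Qb)) : w ∈ A.nonunits := by
  have hp : A.valuation (p : Qb) < 1 := (ValuationSubring.mem_nonunits_iff A).1 hA
  rw [ValuationSubring.mem_nonunits_iff]
  by_contra h
  push Not at h
  have h2 : 1 ≤ A.valuation w ^ (p - 1) := one_le_pow₀ h
  rw [← map_pow, hw, Valuation.map_neg] at h2
  exact absurd hp (not_lt.2 h2)

theorem D23_w_ne {p : ℕ} (hp : p.Prime) {w : Qb} (hw : w ^ (p - 1) = -(p : Qb)) : w ≠ 0 := by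
  rintro rfl
  have hp1 : p - 1 ≠ 0 := by have := hp.two_le; omega
  rw [zero_pow hp1] at hw
  have hp0 : (p : Qb) = 0 := by simpa using hw.symm
  exact hp.ne_zero (by exact_mod_cast hp0)

set_option maxHeartbeats 1600000 in
/-- **[D2-3]**, all inputs explicit. -/
theorem D23_core (hTC : Stmt_TCDeep) (hTD : Stmt_TCData) (hTame : ORD.Dep.Stmt_Tame)
    (hTI : Stmt_TCInt) (hTDeg : Stmt_TCDeg) (hNS : Stmt_NormS) (hSL : Stmt_SigmaL)
    (hInd : Stmt_Induces) (hALP : Stmt_ALProps) (hAr : INJ.Inst.Stmt_ArchD)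
    (hLP : INJ.Inst.Stmt_LocPow) : Stmt_DM := by
  intro a M r _ _ A hctx W hW L₁ D₁ hD₁ w π' hw hπ u f hdiv hf1 hf2 hu σ hσ cc hcc
  have hrP : r.Prime := hctx.hr
  have : Fact r.Prime := ⟨hrP⟩
  have : IsAlgClosed (kA A) := S18G.isAlgClosed_kA A
  have hM0 : M ≠ 0 := NeZero.ne M
  have hN0 : M * r ≠ 0 := NeZero.ne (M * r)
  obtain ⟨hWW, hWgal, -⟩ := hALP M r W hW
  obtain ⟨L', D', hD'⟩ := exists_gaussS M A
  obtain ⟨ι₁, ι₂, j, Fr, φb, τ, hmaps, hTC'⟩ := hTD a M r A hctx L' D' hD' L₁ D₁ hD₁ W hW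
  set c : ℕ := cJ a with hc
  -- the coordinate
  obtain ⟨s0, hs0⟩ : ∃ s0 : FL M, (s0 : LaurentSeries Qb) = sS M c Qb :=
    ⟨⟨_, GM_sS_mem hM0 dvd_rfl c⟩, rfl⟩
  have hs : ((ι₁ s0 : FL (M * r)) : LaurentSeries Qb) = sS M c Qb := by rw [hmaps.ι₁, hs0]
  have hsr : ((ι₂ s0 : FL (M * r)) : LaurentSeries Qb) = sS (M * r) c Qb := by
    rw [hmaps.ι₂, hs0, GM_Vq_sS Qb hM0 hrP.ne_zero]
  obtain ⟨hCh, -, hN1, hN2⟩ : Chart D' s0 ∧ Chart D' s0⁻¹ ∧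
      (∀ yb : L', IsInt (kA A) (D'.rd s0) yb → ∃ y ∈ D'.O, IsInt Qb s0 y ∧ D'.rd y = yb) ∧
      (∀ yb : L', IsInt (kA A) (D'.rd s0⁻¹) yb → ∃ y ∈ D'.O, IsInt Qb s0⁻¹ y ∧ D'.rd y = yb) := by
    rcases hctx.ha with ha | ha
    · subst ha
      exact hNS.1 M r hctx.haM hctx.hrM A hctx.hA L' D' hD'.gauss s0 hs0
    · subst ha
      exact hNS.2 M r hctx.haM hctx.hrM A hctx.hA L' D' hD'.gauss s0 hs0
  have hrd0 : ((D'.rd s0 : L') : LaurentSeries (kA A)) = sS M c (kA A) := by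
    have h := (hD'.gauss.mem_rd (sS M c A) s0 (by rw [hs0, GM_coeffMap_sS])).2
    rwa [GM_coeffMap_sS] at h
  have hφ : φb (D'.rd s0) = D'.rd s0 := by
    apply Subtype.ext
    rw [hmaps.φb, hrd0, GM_coeffMap_sS]
  obtain ⟨hI1, hI2, hI3, hI4, -, -⟩ := hTI M r c hrP (ι₁ s0) (ι₂ s0) hs hsr
  obtain ⟨hfin, hdeg⟩ := hTDeg M r c hrP hctx.hrM W hW s0 (ι₁ s0) (ι₂ s0) hs0 hs hsr
  have hArch : Arch D₁ := hAr (M * r) r A hctx.hA L₁ D₁ hD₁.gauss
  set T : FL (M * r) := ι₁ s0 * ι₂ s0 with hT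
  have htrs : Transcendental Qb (ι₁ s0) :=
    transcendental_of_coe (by rw [hs]; exact GM_transcendental_sS hM0 c Qb)
  have htrT : Transcendental Qb T := GM_transcendental_of_isInt htrs hI1
  have htrT' : Transcendental Qb T⁻¹ := S24.transcendental_inv_of_transcendental htrT
  have hfin' : FiniteDimensional Qb⟮T⁻¹⟯ (FL (M * r)) := by
    rw [S24.adjoin_simple_inv_eq]
    exact hfin
  -- local powers
  have hu0 : u ≠ 0 := hdiv.1
  have hL1 := hLP Qb (FL (M * r)) T u r htrT hfin hu0 hrP.pos hdiv.2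
  have hL2 := hLP Qb (FL (M * r)) T⁻¹ u r htrT' hfin' hu0 hrP.pos hdiv.2
  -- the Galois action
  have hgalT : ES.Mid.gal (M * r) σ T = T := by
    rw [hT, map_mul, GM_gal_eq_self σ _ _ _ hs, GM_gal_eq_self σ _ _ _ hsr]
  obtain ⟨σ₁, hσ₁, hσ₂⟩ := hSL (M * r) A L₁ D₁ hD₁ σ (RingHom.id _) ((hInd A σ).1 hσ)
  have hσid : ∀ y : L₁, σ₁ y = y := fun y => Subtype.ext (by rw [hσ₁, coeffMap_id])
  have k3 : ∀ z ∈ D₁.O, ES.Mid.gal (M * r) σ z ∈ D₁.O ∧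
      D₁.rd (ES.Mid.gal (M * r) σ z) = D₁.rd z := by
    intro z hz
    obtain ⟨h1, h2⟩ := hσ₂ z hz
    exact ⟨h1, by rw [h2, hσid]⟩
  have k3' : ∀ z ∈ (twist D₁ W).O, ES.Mid.gal (M * r) σ z ∈ (twist D₁ W).O ∧
      (twist D₁ W).rd (ES.Mid.gal (M * r) σ z) = (twist D₁ W).rd z := by
    intro z hz
    rw [mem_twist_O] at hz ⊢
    rw [twist_rd, twist_rd, hWgal]
    exact k3 _ hz
  -- the constants
  obtain ⟨hwD, hwr⟩ := D23_ra_zero hD₁.gauss (D23_w_mem A hctx.hA hw)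
  obtain ⟨hπD, hπr⟩ := D23_ra_zero hD₁.gauss hπ.2
  have hw0 : w ≠ 0 := D23_w_ne hrP hw
  obtain ⟨haD, har⟩ := D23_ra_nat hD₁.gauss cc (hTame r hrP A hctx.hA w hw σ hσ cc hcc)
  have hgw : ES.Mid.gal (M * r) σ (algebraMap Qb (FL (M * r)) w)
      = algebraMap Qb (FL (M * r)) (σ w * w⁻¹ * w) := by
    rw [GM_gal_algebraMap, inv_mul_cancel_right₀ hw0]
  exact hTC Qb (FL M) (FL (M * r)) (kA A) L' L₁ D' D₁ (twist D₁ W) ι₁ ι₂ j Fr φb r hTC' hArch s0 hCh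
    hφ hN1 hN2 hI1 hI2 hI3 hI4 hfin hdeg (ES.Mid.gal (M * r) σ)
    (fun b => ⟨σ b, GM_gal_algebraMap σ b⟩) hgalT k3 k3' r w π' (σ w * w⁻¹) cc u f hrP hw hwD hwr
    hπ.1 hπD hπr hf1 ((mem_twist_O D₁ W f).2 hf2) hu haD har hgw hL1 hL2

/-- **[D2-3]**. -/
theorem stmt_DM (hTC : Stmt_TCDeep) (hTD : BR.Inst.Stmt_TCData) (hTame : ORD.Dep.Stmt_Tame) :
    Stmt_DM :=
  D23_core hTC hTD hTame stmt_TCInt all_TCDeg all_NormS (stmt_SigmaL stmt_RedGal) stmt_Induces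
    stmt_ALProps AR36_stmt_ArchD stmt_LocPow

/-- **[D2-3]** from `Stmt_TCDeep` alone. -/
theorem DM_of_TCDeep (hTC : Stmt_TCDeep) : Stmt_DM :=
  stmt_DM hTC all_TCData ORD.Dep.stmt_Tame

end Fermat.Agent.ORD.D2

end
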