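import Fermat.Agent.ORD.D2.Interface
import Fermat.Agent.INJ.Deep.Adapter

/-!
# ORD / D2 / D2-4 : Theorem D'' at the levels `M * p` for classes (normalisation by weak
approximation)
-/

set_option autoImplicit false
set_option synthInstance.maxHeartbeats 400000

noncomputable section

namespace Fermat.Agent.ORD.D2

open AlgebraicCurve ModularCurve IntermediateField Polynomial
open Fermat.Agent Fermat.Agent.INJ Fermat.Agent.INJ.Inst Fermat.Agent.BR.Inst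
open Fermat.Agent.ORD.Dep (Cg Sm ActsMu cst GO)

/-- `w ^ (p - 1) = - p` forces `w ∈ A`, `w⁻¹ ∉ A`. -/
theorem D24_w_mem {p : ℕ} (hp : p.Prime) (A : ValuationSubring Qb) (hA : A.LiesOverPrime p)
    {w : Qb} (hw : w ^ (p - 1) = -(p : Qb)) : w ∈ A ∧ w⁻¹ ∉ A := by
  have hp1 : A.valuation (p : Qb) < 1 := (ValuationSubring.mem_nonunits_iff A).1 hA
  have hp0 : p - 1 ≠ 0 := by
    have := hp.two_le
    omega
  have h1 : A.valuation w < 1 := by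
    rw [← pow_lt_one_iff_of_nonneg zero_le hp0, ← map_pow, hw, Valuation.map_neg]
    exact hp1
  have hw0 : w ≠ 0 := by
    rintro rfl
    rw [zero_pow hp0] at hw
    have h2 : (p : Qb) = 0 := by linear_combination hw
    exact hp.ne_zero (by exact_mod_cast h2)
  have hv0 : 0 < A.valuation w := zero_lt_iff.2 ((A.valuation.ne_zero_iff).2 hw0)
  refine ⟨(A.valuation_le_one_iff w).1 h1.le, fun h => ?_⟩
  have h3 := (A.valuation_le_one_iff _).2 h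
  rw [map_inv₀, inv_le_one₀ hv0] at h3
  exact absurd h1 (not_lt.2 h3)

theorem D24_isDiv_mul_pow {N m : ℕ} {u h : FL N} (hu : ES.Mid.IsDiv N m u) (hh : h ≠ 0) :
    ES.Mid.IsDiv N m (u * h ^ m) := by
  refine ⟨mul_ne_zero hu.1 (pow_ne_zero _ hh), fun P => ?_⟩
  have h1 : P.ord (h ^ m) = (m : ℤ) * P.ord h := by
    have := P.ord_zpow h (m : ℤ)
    rwa [zpow_natCast] at this
  rw [P.ord_mul hu.1 (pow_ne_zero _ hh), h1]
  exact dvd_add (hu.2 P) (dvd_mul_right _ _)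

/-- the dictionary: `Cg` on `q`-expansions implies `≡ 1 mod e O`. -/
theorem D24_dict {N : ℕ} {A : ValuationSubring Qb}
    {L : IntermediateField (kA A) (LaurentSeries (kA A))} {D : RedData Qb (FL N) (kA A) L}
    (hD : IsGaussS N A L D) (x : FL N) (e : Qb) (he : e ≠ 0)
    (h : Cg A e (x : LaurentSeries Qb) 1) :
    ∃ z ∈ D.O, x = 1 + algebraMap Qb (FL N) e * z := by
  obtain ⟨Z, ⟨f, g, hg, hfg⟩, hZ⟩ := h
  have he' : algebraMap Qb (FL N) e ≠ 0 := (_root_.map_ne_zero _).2 he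
  have hce : cst e ≠ 0 := (_root_.map_ne_zero _).2 he
  have hz : (((x - 1) * (algebraMap Qb (FL N) e)⁻¹ : FL N) : LaurentSeries Qb) = Z := by
    have h1 : (((x - 1) * (algebraMap Qb (FL N) e)⁻¹ : FL N) : LaurentSeries Qb)
        = ((x : LaurentSeries Qb) - 1) * (cst e)⁻¹ := rfl
    rw [h1, hZ]
    field_simp
    ring
  refine ⟨(x - 1) * (algebraMap Qb (FL N) e)⁻¹, ?_, ?_⟩
  · exact (hD.ratio _ f g hg (by rw [hz]; exact hfg)).1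
  · field_simp
    ring

/-- the final algebra. -/
theorem D24_descend {F : Type*} [Field F] (σ : F ≃+* F) (u h g : F) (p c : ℕ) (hu : u ≠ 0)
    (hh : h ≠ 0) (hg : g ^ p = σ (u * h ^ p) * ((u * h ^ p) ^ c)⁻¹) :
    σ u = u ^ c * (g * h ^ c / σ h) ^ p := by
  have h1 : σ h ≠ 0 := (_root_.map_ne_zero σ).2 hh
  rw [div_pow, mul_pow, hg, map_mul, map_pow, mul_pow]
  field_simp
  ring

theorem stmt_DNorm (hDM : Stmt_DM) (hWA : ORD.NM.Stmt_WA) (hPow : INJ.Deep.Stmt_PowCg)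
    (hALP : BR.Inst.Stmt_ALProps) : Stmt_DNorm := by
  intro a M p _ _ A hctx W hW w π' hw hπ u hdiv H1 H2 s hs c hc
  have hp : p.Prime := hctx.hr
  obtain ⟨hWW, -, -⟩ := hALP M p W hW
  obtain ⟨L₁, D₁, hD₁⟩ := exists_gaussS (M * p) A
  obtain ⟨hwA, hwA'⟩ := D24_w_mem hp A hctx.hA hw
  have hDA : D₁.A = A := hD₁.gauss.hA
  have hw0 : w ≠ 0 := by
    rintro rfl
    exact hwA' (by rw [inv_zero]; exact A.zero_mem)
  have hπ0 : π' ≠ 0 := hπ.1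
  have hπA : π' ∈ A :=
    (A.valuation_le_one_iff π').1 ((ValuationSubring.mem_nonunits_iff A).1 hπ.2).le
  have he0 : w ^ p * π' ≠ 0 := mul_ne_zero (pow_ne_zero _ hw0) hπ0
  have hε0 : w * π' ≠ 0 := mul_ne_zero hw0 hπ0
  have heO : algebraMap Qb (FL (M * p)) (w ^ p * π') ∈ D₁.O :=
    RedData.algebraMap_mem (by rw [hDA]; exact mul_mem (pow_mem hwA p) hπA)
  have heF : algebraMap Qb (FL (M * p)) (w ^ p * π') ≠ 0 := (_root_.map_ne_zero _).2 he0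
  -- the power lemma
  have hpow : ∀ x : FL (M * p), (∃ z ∈ D₁.O, x = 1 + algebraMap Qb (FL (M * p)) (w * π') * z) →
      ∃ z ∈ D₁.O, x ^ p = 1 + algebraMap Qb (FL (M * p)) (w ^ p * π') * z := by
    intro x hx
    have hw' : w ∈ D₁.A ∧ w⁻¹ ∉ D₁.A := by rw [hDA]; exact ⟨hwA, hwA'⟩
    exact hPow Qb (FL (M * p)) L₁ (INJ.Deep.ofRed D₁ w hw') p w π' ⟨hp, hw', hw⟩
      (by show π' ∈ D₁.A; rw [hDA]; exact hπA) x hx
  obtain ⟨c₁, g₁, hc₁, hg₁, hC₁⟩ := H1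
  obtain ⟨c₂, g₂, hc₂, hg₂, hC₂⟩ := H2
  obtain ⟨z₁, hz₁, hx₁⟩ := D24_dict hD₁ (algebraMap Qb (FL (M * p)) c₁ * u * g₁ ^ p) _ he0 hC₁
  obtain ⟨z₂, hz₂, hx₂⟩ := D24_dict hD₁ (algebraMap Qb (FL (M * p)) c₂ * W u * g₂ ^ p) _ he0 hC₂
  obtain ⟨γ₁, hγ₁⟩ := IsAlgClosed.exists_pow_nat_eq c₁ hp.pos
  obtain ⟨γ₂, hγ₂⟩ := IsAlgClosed.exists_pow_nat_eq c₂ hp.pos
  have hγ₁0 : γ₁ ≠ 0 := by
    rintro rfl
    rw [zero_pow hp.ne_zero] at hγ₁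
    exact hc₁ hγ₁.symm
  have hγ₂0 : γ₂ ≠ 0 := by
    rintro rfl
    rw [zero_pow hp.ne_zero] at hγ₂
    exact hc₂ hγ₂.symm
  obtain ⟨f₁, hf₁⟩ : ∃ f₁ : FL (M * p), f₁ = algebraMap Qb (FL (M * p)) γ₁ * g₁ := ⟨_, rfl⟩
  obtain ⟨f₂, hf₂⟩ : ∃ f₂ : FL (M * p), f₂ = algebraMap Qb (FL (M * p)) γ₂ * W g₂ := ⟨_, rfl⟩
  have hf₁0 : f₁ ≠ 0 := by
    rw [hf₁]
    exact mul_ne_zero ((_root_.map_ne_zero _).2 hγ₁0) hg₁
  have hf₂0 : f₂ ≠ 0 := by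
    rw [hf₂]
    exact mul_ne_zero ((_root_.map_ne_zero _).2 hγ₂0) ((_root_.map_ne_zero _).2 hg₂)
  have hu₁ : u * f₁ ^ p = 1 + algebraMap Qb (FL (M * p)) (w ^ p * π') * z₁ := by
    rw [← hx₁, hf₁, mul_pow, ← map_pow, hγ₁]
    ring
  have hu₂ : W (u * f₂ ^ p) = 1 + algebraMap Qb (FL (M * p)) (w ^ p * π') * z₂ := by
    rw [← hx₂, hf₂, mul_pow, ← map_pow, hγ₂, map_mul, map_mul, map_pow, hWW, AlgEquiv.commutes]
    ring
  obtain ⟨h, hh0, hh₁, hh₂⟩ := hWA p hp A hctx.hA M hctx.hrM W hW f₁ f₂ hf₁0 hf₂0 (w * π') hε0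
  obtain ⟨y₁, hy₁, hy₁e⟩ := hpow _ (D24_dict hD₁ _ _ hε0 hh₁)
  obtain ⟨y₂, hy₂, hy₂e⟩ := hpow _ (D24_dict hD₁ _ _ hε0 hh₂)
  -- the normalised representative
  have hU₁ : u * h ^ p = 1 + algebraMap Qb (FL (M * p)) (w ^ p * π') *
      (z₁ + y₁ + algebraMap Qb (FL (M * p)) (w ^ p * π') * z₁ * y₁) := by
    have e1 : u * h ^ p = (u * f₁ ^ p) * (h * f₁⁻¹) ^ p := by
      rw [mul_pow, inv_pow]
      field_simp
    rw [e1, hu₁, hy₁e]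
    ring
  have hU₂ : W (u * h ^ p) = 1 + algebraMap Qb (FL (M * p)) (w ^ p * π') *
      (z₂ + y₂ + algebraMap Qb (FL (M * p)) (w ^ p * π') * z₂ * y₂) := by
    have e1 : u * h ^ p = (u * f₂ ^ p) * (h * f₂⁻¹) ^ p := by
      rw [mul_pow, inv_pow]
      field_simp
    rw [e1, map_mul, map_pow, hu₂, hy₂e]
    ring
  have hfa : z₁ + y₁ + algebraMap Qb (FL (M * p)) (w ^ p * π') * z₁ * y₁ ∈ D₁.O :=
    add_mem (add_mem hz₁ hy₁) (mul_mem (mul_mem heO hz₁) hy₁)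
  have hfb : z₂ + y₂ + algebraMap Qb (FL (M * p)) (w ^ p * π') * z₂ * y₂ ∈ D₁.O :=
    add_mem (add_mem hz₂ hy₂) (mul_mem (mul_mem heO hz₂) hy₂)
  have hWfa : W (z₁ + y₁ + algebraMap Qb (FL (M * p)) (w ^ p * π') * z₁ * y₁) ∈ D₁.O := by
    have e1 := hU₂
    rw [hU₁, map_add, map_one, map_mul, AlgEquiv.commutes] at e1
    have e2 := mul_left_cancel₀ heF (add_left_cancel e1)
    rw [e2]
    exact hfb
  obtain ⟨g, hg⟩ := hDM a M p A hctx W hW L₁ D₁ hD₁ w π' hw hπ (u * h ^ p) _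
    (D24_isDiv_mul_pow hdiv hh0) hfa hWfa hU₁ s hs c hc
  exact ⟨_, D24_descend (ES.Mid.gal (M * p) s) u h g p c hdiv.1 hh0 hg⟩

end Fermat.Agent.ORD.D2

end
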