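import Fermat.Agent.ORD.D2.TCDeep
import Fermat.Agent.ORD.D2.DM
import Fermat.Agent.ORD.D2.DNorm
import Fermat.Agent.ORD.D2.D2FF
import Fermat.Agent.ORD.NM.WA
import Fermat.Agent.ORD.NM.Bridge
import Fermat.Agent.INJ.Deep.Cube

/-!
# ORD / D2 : assembly.  Theorem D'' at the function fields `FL (M * p)` (`NM.Stmt_D2FF`),
unconditional.
-/

set_option autoImplicit false

namespace Fermat.Agent.ORD.D2

theorem all_DM : Stmt_DM := DM_of_TCDeep tcDeep

theorem all_DNorm : Stmt_DNorm :=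
  stmt_DNorm all_DM ORD.NM.stmt_WA INJ.Deep.all_PowCg BR.Inst.stmt_ALProps

/-- **Theorem D''** at all levels `M * p`, `p ∤ M`, `p` odd. -/
theorem d2ff : ORD.NM.Stmt_D2FF :=
  stmt_D2FF all_DNorm ORD.NM.stmt_ALPrime INJ.Deep.stmt_Cube

end Fermat.Agent.ORD.D2
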