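import Fermat.Agent.BR.Inst.Interface2
import Fermat.Agent.INJ.Deep.SInterface
import Fermat.Agent.INJ.Deep.InstInterface
import Fermat.Agent.ORD.NM.Interface

/-!
# ORD / D2 : Theorem D'' at the modular function fields `FL (M * p)`, `p ∤ M` (statements)
(architect: helper49)

`A` over `p`, `v_∞` = `q`-Gauss valuation of `F = FL (M * p)`, `v_0 = v_∞ ∘ W`, `W = w_p`.
A class `[u] ∈ U_p / F^p` which is *deep* (`≡ 1 mod w ^ p π'`, `w ^ (p - 1) = - p`, `|π'| < 1`) at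
`v_∞` and at `v_0` : the inertia group acts on it through the cyclotomic character mod `p`.

Chain: `INJ.Deep.Stmt_DeepS` (landed) ⟹ `Stmt_TCDeep` (two copies, abstract) ⟹ `Stmt_DM` (levels
with an auxiliary level `a ∣ M`, one representative deep at both valuations) ⟹ `Stmt_DNorm` (classes;
weak approximation `NM.Stmt_WA`) ⟹ `NM.Stmt_D2FF` (all levels).
-/

set_option autoImplicit false
set_option synthInstance.maxHeartbeats 400000

noncomputable section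

namespace Fermat.Agent.ORD.D2

open AlgebraicCurve ModularCurve IntermediateField Polynomial
open Fermat.Agent Fermat.Agent.INJ Fermat.Agent.INJ.Inst Fermat.Agent.BR.Inst
open Fermat.Agent.BR.Inv (TC Pair Normal)
open Fermat.Agent.ORD.Dep (Cg Sm ActsMu cst)

/-- D2-1.  **Theorem D'' for two copies** (same geometric hypotheses as `BR.Inv.Stmt_TCG`). -/
def Stmt_TCDeep : Prop :=
  ∀ (K F' F k L L₁ : Type) [Field K] [Field F'] [Algebra K F'] [Field F] [Algebra K F]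
    [Field k] [Field L] [Algebra k L] [Field L₁] [Algebra k L₁]
    [IsAlgClosed K] [CharZero K] [IsAlgClosed k]
    (D' : RedData K F' k L) (D₁ D₂ : RedData K F k L₁) (ι₁ ι₂ : F' →ₐ[K] F) (j : L →ₐ[k] L₁)
    (Fr : L →+* L) (φb : L ≃+* L) (r : ℕ), TC D' D₁ D₂ ι₁ ι₂ j Fr φb r → Arch D₁ →
    ∀ x : F', Chart D' x → φb (D'.rd x) = D'.rd x → Normal D' x → Normal D' x⁻¹ →
      IsInt K (ι₁ x * ι₂ x) (ι₁ x) → IsInt K (ι₁ x * ι₂ x) (ι₂ x) →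
      IsInt K (ι₁ x * ι₂ x)⁻¹ (ι₁ x)⁻¹ → IsInt K (ι₁ x * ι₂ x)⁻¹ (ι₂ x)⁻¹ →
      FiniteDimensional K⟮ι₁ x * ι₂ x⟯ F →
      Module.finrank K⟮ι₁ x * ι₂ x⟯ F ≤ 2 * ((r + 1) * Module.finrank K⟮x⟯ F') →
    ∀ s : F ≃+* F,
      (∀ a : K, ∃ a' : K, s (algebraMap K F a) = algebraMap K F a') →
      s (ι₁ x * ι₂ x) = ι₁ x * ι₂ x →
      (∀ z ∈ D₁.O, s z ∈ D₁.O ∧ D₁.rd (s z) = D₁.rd z) →
      (∀ z ∈ D₂.O, s z ∈ D₂.O ∧ D₂.rd (s z) = D₂.rd z) →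
    ∀ (p : ℕ) (w π' a' : K) (a : ℕ) (u f : F), p.Prime → w ^ (p - 1) = -(p : K) →
      w ∈ D₁.A → D₁.ra w = 0 → π' ≠ 0 → π' ∈ D₁.A → D₁.ra π' = 0 → f ∈ D₁.O → f ∈ D₂.O →
      u = 1 + algebraMap K F (w ^ p * π') * f →
      a' ∈ D₁.A → D₁.ra a' = (a : k) → s (algebraMap K F w) = algebraMap K F (a' * w) →
      LocPow K (ι₁ x * ι₂ x) u p → LocPow K (ι₁ x * ι₂ x)⁻¹ u p →
      ∃ y : F, y ^ p = s u * (u ^ a)⁻¹

/-- D2-3.  Theorem D'' at the levels `M * p`, `a ∣ M`, for a function which is deep at both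
valuations. -/
def Stmt_DM : Prop :=
  ∀ (a M p : ℕ) [NeZero M] [NeZero (M * p)] (A : ValuationSubring Qb), Ctx a M p A →
    ∀ W : FL (M * p) ≃ₐ[Qb] FL (M * p), IsAL M p W →
    ∀ (L₁ : IntermediateField (kA A) (LaurentSeries (kA A)))
      (D₁ : RedData Qb (FL (M * p)) (kA A) L₁), IsGaussS (M * p) A L₁ D₁ →
    ∀ w π' : Qb, w ^ (p - 1) = -(p : Qb) → Sm A π' →
    ∀ u f : FL (M * p), ES.Mid.IsDiv (M * p) p u → f ∈ D₁.O → W f ∈ D₁.O →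
      u = 1 + algebraMap Qb (FL (M * p)) (w ^ p * π') * f →
    ∀ s ∈ A.inertiaSubgroupIn ℚ, ∀ c : ℕ, ActsMu p s c →
      ∃ g : FL (M * p), g ^ p = ES.Mid.gal (M * p) s u * (u ^ c)⁻¹

/-- D2-4.  Theorem D'' at the levels `M * p`, `a ∣ M`, for classes (weak approximation =
`NM.Stmt_WA`, landed). -/
def Stmt_DNorm : Prop :=
  ∀ (a M p : ℕ) [NeZero M] [NeZero (M * p)] (A : ValuationSubring Qb), Ctx a M p A →
    ∀ W : FL (M * p) ≃ₐ[Qb] FL (M * p), IsAL M p W →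
    ∀ w π' : Qb, w ^ (p - 1) = -(p : Qb) → Sm A π' →
    ∀ u : FL (M * p), ES.Mid.IsDiv (M * p) p u →
      (∃ (c : Qb) (g : FL (M * p)), c ≠ 0 ∧ g ≠ 0 ∧ Cg A (w ^ p * π')
        (cst c * (u : LaurentSeries Qb) * (g : LaurentSeries Qb) ^ p) 1) →
      (∃ (c : Qb) (g : FL (M * p)), c ≠ 0 ∧ g ≠ 0 ∧ Cg A (w ^ p * π')
        (cst c * ((W u : FL (M * p)) : LaurentSeries Qb) * (g : LaurentSeries Qb) ^ p) 1) →
    ∀ s ∈ A.inertiaSubgroupIn ℚ, ∀ c : ℕ, ActsMu p s c →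
      ∃ g : FL (M * p), ES.Mid.gal (M * p) s u = u ^ c * g ^ p

/- D2-5 : the final statement is `NM.Stmt_D2FF` (all levels `M * p`, `p ∤ M`, `p` odd). -/

end Fermat.Agent.ORD.D2

end
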