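import Fermat.Agent.ORD.D2.Interface
import Fermat.Agent.BR.Inv.TCAll
import Fermat.Agent.INJ.Deep.AllS

/-!
# ORD / D2 : Theorem D'' for two copies (`Stmt_TCDeep`)   (helper97)
-/

set_option autoImplicit false
set_option synthInstance.maxHeartbeats 400000

namespace Fermat.Agent.ORD.D2

open Polynomial IntermediateField
open Fermat.Agent Fermat.Agent.INJ
open Fermat.Agent.BR.Inv

theorem stmt_TCDeep (hD : INJ.Deep.Stmt_DeepS) (hP : BR.Inv.Stmt_OfPair) (h1 : BR.Inv.Stmt_TCPair)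
    (h3 : BR.Inv.Stmt_TCChart) (h6 : BR.Inv.Stmt_TCSN) : Stmt_TCDeep := by
  intro K F' F k L L₁ _ _ _ _ _ _ _ _ _ _ _ _ _ D' D₁ D₂ ι₁ ι₂ j Fr φb r hTC hArch x hCh hφX hN hN'
    hi1 hi2 hi1' hi2' hfin hdeg s hsK hsT hs1 hs2 p w π' a' a u f hp hw hwA hw0 hπ hπA hπ0 hf1 hf2
    hu ha'A ha' hsw hL hL'
  have hxO := hCh.t_mem
  have hXtr := hCh.trans
  have hPair := h1 K F' F k L L₁ D' D₁ D₂ ι₁ ι₂ j Fr φb r hTC x hxO hXtr hφX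
  obtain ⟨S, hSA, hSra, hSmem, hSrd, hSArch, hSunit⟩ := hP K F k L₁ L₁ D₁ D₂ hPair hArch
  have hIP : IsPairData D₁ D₂ S := ⟨hSA, hSra, hSmem, hSrd, hSunit⟩
  obtain ⟨hSC, hjs⟩ := h3 K F' F k L L₁ D' D₁ D₂ ι₁ ι₂ j Fr φb r hTC S hIP x hCh hφX hfin hdeg
  obtain ⟨hSN, -⟩ :=
    h6 K F' F k L L₁ D' D₁ D₂ ι₁ ι₂ j Fr φb r hTC hjs S hIP x hxO hXtr hφX hN hi1 hi2
  -- the chart at infinity
  have hCh' : Chart D' x⁻¹ := INJ.stmt_ChartInv K F' k L D' x hCh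
  have hX0 : D'.rd x ≠ 0 := by
    intro h0
    rw [h0] at hXtr
    exact hXtr isAlgebraic_zero
  have hXi : D'.rd x⁻¹ = (D'.rd x)⁻¹ := RedData.rd_inv hX0
  have hTinv : ι₁ x⁻¹ * ι₂ x⁻¹ = (ι₁ x * ι₂ x)⁻¹ := by rw [map_inv₀, map_inv₀, mul_inv]
  obtain ⟨hSN', -⟩ :=
    h6 K F' F k L L₁ D' D₁ D₂ ι₁ ι₂ j Fr φb r hTC hjs S hIP x⁻¹ hCh'.t_mem hCh'.trans
      (by rw [hXi, map_inv₀, hφX]) hN'
      (by rw [hTinv, map_inv₀]; exact hi1') (by rw [hTinv, map_inv₀]; exact hi2')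
  rw [hTinv] at hSN'
  have hEndo : SEndo S (ι₁ x * ι₂ x) (s : F →+* F) (RingHom.id (L₁ × L₁)) := by
    refine ⟨hsK, hsT, fun z hz => ?_, fun z hz => ?_⟩
    · obtain ⟨hz1, hz2⟩ := (hSmem z).1 hz
      exact (hSmem _).2 ⟨(hs1 z hz1).1, (hs2 z hz2).1⟩
    · obtain ⟨hz1, hz2⟩ := (hSmem z).1 hz
      have hz' : s z ∈ S.O := (hSmem _).2 ⟨(hs1 z hz1).1, (hs2 z hz2).1⟩
      show S.rd (s z) = S.rd z
      rw [hSrd _ hz', hSrd _ hz, (hs1 z hz1).2, (hs2 z hz2).2]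
  exact hD K F k (L₁ × L₁) S (ι₁ x * ι₂ x) hSC hSN hSN' hSArch p w π' a' a s u f hp hw
    (by rw [hSA]; exact hwA) (by rw [hSra]; exact hw0) hπ (by rw [hSA]; exact hπA)
    (by rw [hSra]; exact hπ0) ((hSmem f).2 ⟨hf1, hf2⟩) hu hEndo (by rw [hSA]; exact ha'A)
    (by rw [hSra]; exact ha') hsw hL hL'

/-- `Stmt_TCDeep` from the abstract Theorem D''. -/
theorem tcDeep_of (hD : INJ.Deep.Stmt_DeepS) : Stmt_TCDeep :=
  stmt_TCDeep hD stmt_OfPair stmt_TCPair (stmt_TCChart stmt_SGauss GAll_SOrtho stmt_TCIndep)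
    (stmt_TCSN stmt_TCLift stmt_TCIdeal)

/-- `Stmt_TCDeep`, unconditionally. -/
theorem tcDeep : Stmt_TCDeep := tcDeep_of INJ.Deep.all_DeepS

end Fermat.Agent.ORD.D2
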